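import Fermat.Agent.IntegralUniform.Main
import Fermat.Agent.TwoSelmerBound.Key
import Fermat.Agent.TwoTorsionBound.Main
import Fermat.Agent.Thirteen.FieldDiscr

/-!
# The `x - θ` descent against the two-torsion of the cubic field

For irreducible `t³ + A t + B` the integers `X - θ D²` have even exponents away from the primes of
`6 (4 A³ + 27 B²)`, and two points with the same class up to squares are in one coset of the
doubles; the discriminant of the field is at most `4 A³ + 27 B²`.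
-/

set_option autoImplicit false
set_option linter.style.haveILetI false

noncomputable section

open WeierstrassCurve NumberField IsDedekindDomain Module Finset Matrix
open FA.AverageRank (shortCurve doubles CubicAlg cubicPoly theta ratIn PointsModTwo
  monic_cubicPoly natDegree_cubicPoly theta_rel exists_coords quadratic_zero add_mem_doubles)
open FA.BrumerSilverman (expo span_singleton_ne expo_mul expo_ne_zero_iff)
open scoped Classical

namespace FA.TwoSelmerBound

variable {K : Type} [Field K] [NumberField K]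

/-- The primes above a given set. -/
theorem exists_support {d : ℕ} (hK : finrank ℚ K = d) {k : ℤ} (hk : k ≠ 0) :
    ∃ T : Finset (HeightOneSpectrum (𝓞 K)), T.card ≤ 2 ^ d * k.natAbs.primeFactors.card ∧
      ∀ v ∉ T, (k : 𝓞 K) ∉ v.asIdeal := by
  have hk' : (k : 𝓞 K) ≠ 0 := Int.cast_ne_zero.mpr hk
  set T := (Ideal.finite_factors (span_singleton_ne hk')).toFinset
  have hmemT : ∀ {v}, v ∈ T → (k : 𝓞 K) ∈ v.asIdeal := fun {v} hv =>
    Ideal.dvd_span_singleton.mp
      ((Set.Finite.mem_toFinset (Ideal.finite_factors (span_singleton_ne hk'))).mp hv)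
  refine ⟨T, ?_, fun v hv h => hv ((Set.Finite.mem_toFinset _).mpr
    (Ideal.dvd_span_singleton.mpr h))⟩
  have hsub : T ⊆ k.natAbs.primeFactors.biUnion fun p =>
      T.filter fun v => (p : 𝓞 K) ∈ v.asIdeal := by
    intro v hv
    have h := hmemT hv
    have h' : ((k.natAbs : ℕ) : 𝓞 K) ∈ v.asIdeal := by
      rw [← Int.cast_natCast (R := 𝓞 K)]
      rcases Int.natAbs_eq k with e | e <;> rw [e] at h
      · exact h
      · rw [Int.cast_neg] at h
        exact v.asIdeal.neg_mem_iff.mp h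
    rw [← Nat.prod_primeFactorsList (Int.natAbs_ne_zero.mpr hk), ← Multiset.prod_coe] at h'
    rw [← eq_natCast (algebraMap ℕ (𝓞 K)), map_multiset_prod] at h'
    obtain ⟨x, hx, hxv⟩ := (v.isPrime.multiset_prod_mem_iff_exists_mem _).mp h'
    obtain ⟨p, hp, rfl⟩ := Multiset.mem_map.mp hx
    exact mem_biUnion.mpr ⟨p, List.mem_toFinset.mpr hp,
      mem_filter.mpr ⟨hv, by simpa using hxv⟩⟩
  refine (card_le_card hsub).trans (card_biUnion_le.trans ?_)
  refine (sum_le_card_nsmul _ _ (2 ^ d) fun p hp => ?_).trans_eq (by rw [smul_eq_mul, mul_comm])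
  have hpp := Nat.prime_of_mem_primeFactors hp
  obtain ⟨t, ht, ht'⟩ := FA.TwoTorsionBound.fewDivisors_prime_pow K (k := 1) hpp
  refine le_trans (card_le_card_of_injOn (fun v => v.asIdeal) (fun v hv => ht' _ ?_)
    fun v _ w _ e => HeightOneSpectrum.ext e) (ht.trans_eq (by rw [hK]))
  rw [pow_one]
  exact Ideal.dvd_span_singleton.mpr (mem_filter.mp hv).2

/-- **The descent value has even exponents.** -/
theorem evenOutside_descent {A B X Y D : ℤ} {θ : 𝓞 K}
    (hθ : θ ^ 3 + (A : 𝓞 K) * θ + (B : 𝓞 K) = 0)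
    (heq : Y ^ 2 = X ^ 3 + A * D ^ 4 * X + B * D ^ 6) (hY : Y ≠ 0)
    (hco : ∀ l : ℕ, l.Prime → (l : ℤ) ∣ D → ¬ (l : ℤ) ∣ X)
    {T : Finset (HeightOneSpectrum (𝓞 K))}
    (hT : ∀ v ∉ T, ((4 * A ^ 3 + 27 * B ^ 2 : ℤ) : 𝓞 K) ∉ v.asIdeal) :
    EvenOutside T ((X : 𝓞 K) - θ * (D : 𝓞 K) ^ 2) := by
  set z := (X : 𝓞 K) - θ * (D : 𝓞 K) ^ 2
  set q := (X : 𝓞 K) ^ 2 + θ * X * (D : 𝓞 K) ^ 2 + (θ ^ 2 + A) * (D : 𝓞 K) ^ 4
  have e : z * q = (Y : 𝓞 K) ^ 2 := by
    have := congrArg (Int.cast : ℤ → 𝓞 K) heq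
    push_cast at this
    simp only [z, q]
    linear_combination -this - (D : 𝓞 K) ^ 6 * hθ
  have hY' : (Y : 𝓞 K) ≠ 0 := Int.cast_ne_zero.mpr hY
  have hne : z * q ≠ 0 := e ▸ pow_ne_zero 2 hY'
  refine ⟨left_ne_zero_of_mul hne, fun v hv => ?_⟩
  by_cases hz : expo v z = 0
  · rw [hz]; exact dvd_zero 2
  have hsum := congrArg (expo v) e
  rw [expo_mul v (left_ne_zero_of_mul hne) (right_ne_zero_of_mul hne), sq,
    expo_mul v hY' hY'] at hsum
  have hq : expo v q = 0 := by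
    by_contra h'
    have m1 := (expo_ne_zero_iff v (left_ne_zero_of_mul hne)).mp hz
    have m2 := (expo_ne_zero_iff v (right_ne_zero_of_mul hne)).mp h'
    have m3 : ((4 * A ^ 3 + 27 * B ^ 2 : ℤ) : 𝓞 K) * (D : 𝓞 K) ^ 4 ∈ v.asIdeal := by
      have := v.asIdeal.mul_mem_left (6 * (A : 𝓞 K) * θ ^ 2 - 9 * (B : 𝓞 K) * θ + 4 * (A : 𝓞 K) ^ 2)
        (v.asIdeal.sub_mem m2 (v.asIdeal.mul_mem_right ((X : 𝓞 K) + 2 * θ * (D : 𝓞 K) ^ 2) m1))
      have e' : (6 * (A : 𝓞 K) * θ ^ 2 - 9 * (B : 𝓞 K) * θ + 4 * (A : 𝓞 K) ^ 2) *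
          (q - z * ((X : 𝓞 K) + 2 * θ * (D : 𝓞 K) ^ 2)) =
          ((4 * A ^ 3 + 27 * B ^ 2 : ℤ) : 𝓞 K) * (D : 𝓞 K) ^ 4 := by
        simp only [q, z]
        push_cast
        linear_combination (18 * (A : 𝓞 K) * θ - 27 * (B : 𝓞 K)) * (D : 𝓞 K) ^ 4 * hθ
      rwa [e'] at this
    have mD : (D : 𝓞 K) ∈ v.asIdeal :=
      v.isPrime.mem_of_pow_mem 4 ((v.isPrime.mem_or_mem m3).resolve_left (hT v hv))
    have mX : (X : 𝓞 K) ∈ v.asIdeal := by
      have := v.asIdeal.add_mem m1 (v.asIdeal.mul_mem_left (θ * (D : 𝓞 K)) mD)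
      rwa [show z + θ * (D : 𝓞 K) * D = X by simp only [z]; ring] at this
    rcases eq_or_ne (Int.gcd X D) 0 with h0 | h0
    · obtain ⟨hX0, hD0⟩ := Int.gcd_eq_zero_iff.mp h0
      subst hX0; subst hD0
      exact hY (pow_eq_zero_iff two_ne_zero |>.mp (by simpa using heq))
    · have hone : Int.gcd X D = 1 := by
        by_contra h1
        have hl := Nat.minFac_prime h1
        have hd : ((Int.gcd X D).minFac : ℤ) ∣ (Int.gcd X D : ℤ) :=
          Int.natCast_dvd_natCast.mpr (Nat.minFac_dvd _)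
        exact hco _ hl (hd.trans (Int.gcd_dvd_right _ _)) (hd.trans (Int.gcd_dvd_left _ _))
      have h1 : ((Int.gcd X D : ℤ) : 𝓞 K) ∈ v.asIdeal := by
        rw [Int.gcd_eq_gcd_ab, Int.cast_add, Int.cast_mul, Int.cast_mul]
        exact v.asIdeal.add_mem (v.asIdeal.mul_mem_right _ mX) (v.asIdeal.mul_mem_right _ mD)
      rw [hone] at h1
      exact v.isPrime.ne_top ((Ideal.eq_top_iff_one _).mpr (by simpa using h1))
  rw [hq, add_zero] at hsum
  omega

/-- The cubic is irreducible without a rational root. -/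
theorem irreducible_cubicPoly {A B : ℚ} (h : ∀ r : ℚ, r ^ 3 + A * r + B ≠ 0) :
    Irreducible (cubicPoly A B) := by
  rw [Polynomial.irreducible_iff_roots_eq_zero_of_degree_le_three
    (by rw [natDegree_cubicPoly]; norm_num) (by rw [natDegree_cubicPoly])]
  refine Multiset.eq_zero_of_forall_notMem fun r hr => h r ?_
  have h0 := (Polynomial.mem_roots (monic_cubicPoly A B).ne_zero).mp hr
  simpa [cubicPoly] using h0

/-- **The descent against the two-torsion.** -/
theorem card_modTwo_le_two_torsion {A B : ℤ} (hΔ : 4 * A ^ 3 + 27 * B ^ 2 ≠ 0)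
    [Fact (Irreducible (cubicPoly (A : ℚ) B))] [NumberField (CubicAlg (A : ℚ) B)] :
    Finite (PointsModTwo (A : ℚ) B) ∧ Nat.card (PointsModTwo (A : ℚ) B) ≤
      1 + 8 * 256 ^ (4 * A ^ 3 + 27 * B ^ 2).natAbs.primeFactors.card *
        Nat.card {c : ClassGroup (𝓞 (CubicAlg (A : ℚ) B)) // c ^ 2 = 1} := by
  set K := CubicAlg (A : ℚ) B
  have hirr : Irreducible (cubicPoly (A : ℚ) B) := Fact.out
  have hroot : ∀ r : ℚ, r ^ 3 + (A : ℚ) * r + B ≠ 0 := by
    intro r hr
    have := Polynomial.degree_eq_one_of_irreducible_of_root hirr (x := r) (by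
      simpa [cubicPoly, Polynomial.IsRoot] using hr)
    rw [Polynomial.degree_eq_natDegree hirr.ne_zero, natDegree_cubicPoly] at this
    norm_num at this
  have hK : finrank ℚ K = 3 := by
    rw [(AdjoinRoot.powerBasis hirr.ne_zero).finrank, AdjoinRoot.powerBasis_dim,
      natDegree_cubicPoly]
  have hin : ∀ r : ℚ, ratIn (A : ℚ) B r = (r : K) := fun r =>
    eq_ratCast (AdjoinRoot.of (cubicPoly (A : ℚ) B)) r
  set θK : K := theta (A : ℚ) B
  have hθ : θK ^ 3 + (A : K) * θK + (B : K) = 0 := by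
    simpa [hin] using theta_rel (A : ℚ) B
  have hint : IsIntegral ℤ θK := ⟨Polynomial.X ^ 3 + Polynomial.C A * Polynomial.X +
    Polynomial.C B, by monicity!, by
      rw [← Polynomial.aeval_def]
      simpa using hθ⟩
  set θ : 𝓞 K := ⟨θK, hint⟩
  have hθ' : θ ^ 3 + (A : 𝓞 K) * θ + (B : 𝓞 K) = 0 :=
    RingOfIntegers.ext (by simpa [θ] using hθ)
  obtain ⟨T, hTc, hT⟩ := exists_support hK hΔ
  let ι := {q : PointsModTwo (A : ℚ) B // q ≠ 0}
  have hrep : ∀ q : ι, ∃ (x y : ℚ) (h : (shortCurve (A : ℚ) B).toAffine.Nonsingular x y),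
      y ≠ 0 ∧ (QuotientAddGroup.mk (Affine.Point.some x y h) : PointsModTwo (A : ℚ) B) = q.1 := by
    intro q
    obtain ⟨P, hP⟩ := QuotientAddGroup.mk_surjective q.1
    rcases P with _ | ⟨x, y, h⟩
    · exact absurd hP.symm q.2
    · refine ⟨x, y, h, ?_, hP⟩
      rintro rfl
      refine hroot x ?_
      have := FA.AverageRank.shortCurve_equation.mp h.1
      linear_combination -this
  choose x y hns hy hq using hrep
  have heq : ∀ q, y q ^ 2 = x q ^ 3 + (A : ℚ) * x q + B := fun q =>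
    FA.AverageRank.shortCurve_equation.mp (hns q).1
  -- the numerator of `x` is divisible by the square root of the denominator
  have hco : ∀ q, ∃ X' D' : ℤ, D' ≠ 0 ∧ (∀ l : ℕ, l.Prime → (l : ℤ) ∣ D' → ¬ (l : ℤ) ∣ X') ∧
      x q * (D' : ℚ) ^ 2 = X' ∧
      ∃ Y' : ℤ, Y' ≠ 0 ∧ Y' ^ 2 = X' ^ 3 + A * D' ^ 4 * X' + B * D' ^ 6 := by
    intro q
    have e : (y q).num ^ 2 * ((x q).den : ℤ) ^ 3 = ((x q).num ^ 3 + A * (x q).num *
        ((x q).den : ℤ) ^ 2 + B * ((x q).den : ℤ) ^ 3) * ((y q).den : ℤ) ^ 2 := by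
      have hxd : ((x q).den : ℚ) ≠ 0 := by exact_mod_cast (x q).den_nz
      have hyd : ((y q).den : ℚ) ≠ 0 := by exact_mod_cast (y q).den_nz
      have h := heq q
      rw [← (x q).num_div_den, ← (y q).num_div_den] at h
      field_simp at h
      exact_mod_cast (by linear_combination h : ((y q).num : ℚ) ^ 2 * ((x q).den : ℚ) ^ 3 =
        (((x q).num : ℚ) ^ 3 + (A : ℚ) * (x q).num * ((x q).den : ℚ) ^ 2 +
          (B : ℚ) * ((x q).den : ℚ) ^ 3) * ((y q).den : ℚ) ^ 2)
    have hpow : (x q).den ^ 3 = (y q).den ^ 2 := by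
      have h1 : IsCoprime (((x q).den : ℤ) ^ 3) ((x q).num ^ 3 + A * (x q).num *
          ((x q).den : ℤ) ^ 2 + B * ((x q).den : ℤ) ^ 3) := by
        have hcd : IsCoprime ((x q).den : ℤ) ((x q).num ^ 3) :=
          (Rat.isCoprime_num_den _).symm.pow_right
        have h' := hcd.add_mul_left_right
          (A * (x q).num * ((x q).den : ℤ) + B * ((x q).den : ℤ) ^ 2)
        rw [show (x q).num ^ 3 + ((x q).den : ℤ) * (A * (x q).num * ((x q).den : ℤ) +
          B * ((x q).den : ℤ) ^ 2) = (x q).num ^ 3 + A * (x q).num * ((x q).den : ℤ) ^ 2 +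
          B * ((x q).den : ℤ) ^ 3 by ring] at h'
        exact h'.pow_left
      have h2 : IsCoprime (((y q).den : ℤ) ^ 2) ((y q).num ^ 2) :=
        (Rat.isCoprime_num_den _).symm.pow
      refine Nat.dvd_antisymm (Int.natCast_dvd_natCast.1 ?_) (Int.natCast_dvd_natCast.1 ?_) <;>
        push_cast
      · exact h1.dvd_of_dvd_mul_left ⟨(y q).num ^ 2, by linear_combination -e⟩
      · exact h2.dvd_of_dvd_mul_left ⟨_, e.trans (mul_comm _ _)⟩
    obtain ⟨d, hxd, hyd⟩ := Nat.exists_eq_pow_of_exponent_coprime_of_pow_eq_pow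
      (by decide : Nat.Coprime 3 2) hpow
    have hd0 : (d : ℤ) ≠ 0 := fun h => (x q).den_nz (by rw [hxd]; simp [Int.natCast_eq_zero.1 h])
    refine ⟨(x q).num, d, hd0, fun l hl h1 h2 => ?_, ?_, (y q).num, ?_, ?_⟩
    · have h := Rat.isCoprime_num_den (x q)
      rw [hxd, Nat.cast_pow, IsCoprime.pow_right_iff (by norm_num)] at h
      exact (Nat.prime_iff_prime_int.1 hl).not_isUnit (h.isUnit_of_dvd' h2 h1)
    · have := Rat.mul_den_eq_num (x q)
      rw [hxd] at this
      simpa using this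
    · exact Rat.num_ne_zero.mpr (hy q)
    · rw [hxd, hyd] at e
      push_cast at e
      exact mul_right_cancel₀ (pow_ne_zero 6 hd0) (by linear_combination e)
  choose X' D' hD' hcop hX' Y' hY' hXY' using hco
  let z : ι → 𝓞 K := fun q => (X' q : 𝓞 K) - θ * (D' q : 𝓞 K) ^ 2
  have hz : ∀ q, (z q : K) = ((x q : K) - θK) * (D' q : K) ^ 2 := by
    intro q
    have := congrArg (fun r : ℚ => (r : K)) (hX' q)
    push_cast at this
    simp [z, θ]
    linear_combination -this
  obtain ⟨hfin, hcard⟩ := card_classes_le_two T z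
    (fun q => evenOutside_descent hθ' (hXY' q) (hY' q) (hcop q) hT) (by
      rintro i j ⟨a, b, ha, hb, hab⟩
      have e : (z i : K) * (a : K) ^ 2 = (z j : K) * (b : K) ^ 2 := by
        exact_mod_cast congrArg (fun r : 𝓞 K => (r : K)) hab
      rw [hz, hz] at e
      refine Subtype.ext ?_
      rw [← hq i, ← hq j]
      refine (QuotientAddGroup.eq (s := doubles (A : ℚ) B)).mpr ?_
      set P := Affine.Point.some _ _ (hns i)
      set Q := Affine.Point.some _ _ (hns j)
      by_cases hx : x i = x j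
      · rcases Affine.Y_eq_of_X_eq (hns i).1 (hns j).1 hx with hY | hY
        · have : P = Q := by simp only [P, Q, Affine.Point.some.injEq]; exact ⟨hx, hY⟩
          rw [this, neg_add_cancel]
          exact zero_mem _
        · have : P = -Q := by
            simp only [P, Q, Affine.Point.neg_some, Affine.Point.some.injEq]
            exact ⟨hx, hY⟩
          rw [this, neg_neg, ← two_nsmul]
          exact ⟨Q, rfl⟩
      · have ha' : (a : K) ≠ 0 := by exact_mod_cast ha
        have hDi : (D' i : K) ≠ 0 := Int.cast_ne_zero.mpr (hD' i)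
        have h := add_mem_doubles (by exact_mod_cast hΔ) (hns i) (hns j) (hy i) (hy j) hx
          (s := ((x j : K) - θK) * ((D' j : K) * b / ((D' i : K) * a))) (by
            rw [hin, hin]
            field_simp
            linear_combination ((x j : K) - θK) * e)
        rw [show -P + Q = (P + Q) - 2 • P by rw [two_nsmul]; abel]
        exact sub_mem h ⟨P, rfl⟩)
  haveI := IntegralUniform.finite_modTwo hΔ
  refine ⟨inferInstance, ?_⟩
  have hsplit : Nat.card (PointsModTwo (A : ℚ) B) ≤ 1 + Nat.card ι := by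
    rw [← Set.ncard_univ, ← Set.union_compl_self ({0} : Set (PointsModTwo (A : ℚ) B))]
    refine (Set.ncard_union_le _ _).trans (le_of_eq ?_)
    rw [Set.ncard_singleton, ← Nat.card_coe_set_eq]
    exact congrArg _ (Nat.card_congr (Equiv.subtypeEquivRight fun q => by simp))
  refine hsplit.trans (Nat.add_le_add_left (hcard.trans ?_) 1)
  have hr : Units.rank K + 1 ≤ 3 := by
    have h1 := InfinitePlace.card_add_two_mul_card_eq_rank K
    have h2 := InfinitePlace.card_eq_nrRealPlaces_add_nrComplexPlaces (K := K)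
    rw [Units.rank]
    omega
  set w := (4 * A ^ 3 + 27 * B ^ 2).natAbs.primeFactors.card
  calc 2 ^ T.card * Nat.card {c : ClassGroup (𝓞 K) // c ^ 2 = 1} * 2 ^ (Units.rank K + 1)
      ≤ 2 ^ (2 ^ 3 * w) * Nat.card {c : ClassGroup (𝓞 K) // c ^ 2 = 1} * 2 ^ 3 :=
        Nat.mul_le_mul (Nat.mul_le_mul_right _ (Nat.pow_le_pow_right (by norm_num) hTc))
          (Nat.pow_le_pow_right (by norm_num) hr)
    _ = _ := by rw [pow_mul]; norm_num; ring

/-- The discriminant of the field is at most that of the cubic. -/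
theorem abs_discr_le_of_root (hK : finrank ℚ K = 3) {A B : ℤ}
    (hΔ : 4 * A ^ 3 + 27 * B ^ 2 ≠ 0) (θ : K) (hθ : θ ^ 3 + (A : K) * θ + (B : K) = 0)
    (hind : ∀ a b c : ℚ, (a : K) * θ ^ 2 + (b : K) * θ + (c : K) = 0 → a = 0 ∧ b = 0 ∧ c = 0) :
    |(discr K : ℝ)| ≤ |((4 * A ^ 3 + 27 * B ^ 2 : ℤ) : ℝ)| := by
  have hli : LinearIndependent ℚ ![(1 : K), θ, θ ^ 2] := by
    rw [Fintype.linearIndependent_iff]
    intro g hg
    simp only [Fin.sum_univ_three, Rat.smul_def] at hg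
    obtain ⟨h2, h1, h0⟩ := hind (g 2) (g 1) (g 0) (by
        simp at hg
        linear_combination hg)
    intro i
    fin_cases i <;> assumption
  let b := basisOfLinearIndependentOfCardEqFinrank hli (by rw [Fintype.card_fin, hK])
  have hb : (b : Fin 3 → K) = ![(1 : K), θ, θ ^ 2] :=
    coe_basisOfLinearIndependentOfCardEqFinrank hli _
  have hrepr : ∀ (u v w : ℚ) (i : Fin 3),
      b.repr ((u : K) + (v : K) * θ + (w : K) * θ ^ 2) i = ![u, v, w] i := by
    intro u v w i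
    have : (u : K) + (v : K) * θ + (w : K) * θ ^ 2 = ∑ j, ![u, v, w] j • b j := by
      simp [hb, Fin.sum_univ_three, Rat.smul_def]
    rw [this, b.repr_sum_self]
  have htr : ∀ (x : K) (u₀ v₀ w₀ u₁ v₁ w₁ u₂ v₂ w₂ : ℚ),
      x = (u₀ : K) + (v₀ : K) * θ + (w₀ : K) * θ ^ 2 →
      x * θ = (u₁ : K) + (v₁ : K) * θ + (w₁ : K) * θ ^ 2 →
      x * θ ^ 2 = (u₂ : K) + (v₂ : K) * θ + (w₂ : K) * θ ^ 2 →
      Algebra.trace ℚ K x = u₀ + v₁ + w₂ := by
    intro x u₀ v₀ w₀ u₁ v₁ w₁ u₂ v₂ w₂ e0 e1 e2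
    rw [Algebra.trace_eq_matrix_trace b, Matrix.trace, Fin.sum_univ_three]
    simp only [Matrix.diag, Algebra.leftMulMatrix_eq_repr_mul, hb]
    simp only [Matrix.cons_val_zero, Matrix.cons_val_one, Matrix.cons_val_two, mul_one]
    simp only [Matrix.head_cons, Matrix.tail_cons]
    rw [e1, e2, e0, hrepr, hrepr, hrepr]
    simp
  have t1 : Algebra.trace ℚ K 1 = 3 := by
    rw [← map_one (algebraMap ℚ K), Algebra.trace_algebraMap, hK]; norm_num
  have tθ : Algebra.trace ℚ K θ = 0 := by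
    have := htr θ 0 1 0 0 0 1 (-B) (-A) 0 (by simp) (by simp; ring)
      (by simp; linear_combination hθ)
    simpa using this
  have tθ2 : Algebra.trace ℚ K (θ ^ 2) = -2 * (A : ℚ) := by
    have := htr (θ ^ 2) 0 0 1 (-B) (-A) 0 0 (-B) (-A) (by simp)
      (by simp; linear_combination hθ) (by simp; linear_combination θ * hθ)
    rw [this]; ring
  have tθ3 : Algebra.trace ℚ K (θ ^ 3) = -3 * (B : ℚ) := by
    rw [show θ ^ 3 = (-(A : ℚ)) • θ + (-(B : ℚ)) • (1 : K) by
      simp [Rat.smul_def]; linear_combination hθ, map_add, map_smul, map_smul, tθ, t1]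
    simp; ring
  have tθ4 : Algebra.trace ℚ K (θ ^ 4) = 2 * (A : ℚ) ^ 2 := by
    rw [show θ ^ 4 = (-(A : ℚ)) • θ ^ 2 + (-(B : ℚ)) • θ by
      simp [Rat.smul_def]; linear_combination θ * hθ, map_add, map_smul, map_smul, tθ, tθ2]
    simp; ring
  have hdet : Algebra.discr ℚ ![(1 : K), θ, θ ^ 2] = -((4 * A ^ 3 + 27 * B ^ 2 : ℤ) : ℚ) := by
    rw [Algebra.discr_def, det_fin_three]
    simp [Algebra.traceMatrix_apply, Algebra.traceForm_apply, t1, tθ, ← pow_succ, ← pow_add,
      ← sq, tθ2, tθ3, tθ4, ← pow_succ']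
    rw [show (θ ^ 2) ^ 2 = θ ^ 4 by ring, tθ4]
    ring
  have hint : IsIntegral ℤ θ := ⟨Polynomial.X ^ 3 + Polynomial.C A * Polynomial.X +
    Polynomial.C B, by monicity!, by
      rw [← Polynomial.aeval_def]
      simpa using hθ⟩
  have hints : ∀ i, IsIntegral ℤ (![(1 : K), θ, θ ^ 2] i) := by
    intro i
    fin_cases i
    · exact isIntegral_one
    · exact hint
    · exact hint.pow 2
  have h := FA.Thirteen.abs_discr_le_of_isIntegral (ι := Fin 3) (by rw [Fintype.card_fin, hK])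
    ![(1 : K), θ, θ ^ 2] hints (by rw [hdet, neg_ne_zero]; exact_mod_cast hΔ)
  rw [hdet, abs_neg] at h
  exact_mod_cast h

/-- The same for the field `ℚ[t] / (t³ + A t + B)`. -/
theorem abs_discr_le_cubic {A B : ℤ} (hΔ : 4 * A ^ 3 + 27 * B ^ 2 ≠ 0)
    [Fact (Irreducible (cubicPoly (A : ℚ) B))] [NumberField (CubicAlg (A : ℚ) B)] :
    |(discr (CubicAlg (A : ℚ) B) : ℝ)| ≤ |((4 * A ^ 3 + 27 * B ^ 2 : ℤ) : ℝ)| := by
  have hirr : Irreducible (cubicPoly (A : ℚ) B) := Fact.out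
  have hin : ∀ r : ℚ, ratIn (A : ℚ) B r = (r : CubicAlg (A : ℚ) B) := fun r =>
    eq_ratCast (AdjoinRoot.of (cubicPoly (A : ℚ) B)) r
  refine abs_discr_le_of_root ?_ hΔ (theta (A : ℚ) B) ?_ fun a b c h => ?_
  · rw [(AdjoinRoot.powerBasis hirr.ne_zero).finrank, AdjoinRoot.powerBasis_dim,
      natDegree_cubicPoly]
  · simpa [hin] using theta_rel (A : ℚ) B
  · exact quadratic_zero (by rw [hin, hin, hin]; exact h)

end FA.TwoSelmerBound
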