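import Fermat.Agent.BrumerSilverman.Field
import Fermat.Agent.IntegralUniform.Models
import Fermat.Agent.Root.SummaryTwoIsogenyRank
import Fermat.Agent.TwoSelmerBound.Descent

/-!
# The points modulo doubles against the discriminant

By the bound for the two-torsion of a cubic field, and by the two-isogeny when the cubic has a root.
-/

set_option autoImplicit false
set_option linter.style.haveILetI false

noncomputable section

open WeierstrassCurve NumberField Module Finset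
open FA.AverageRank (shortCurve CubicAlg cubicPoly PointsModTwo natDegree_cubicPoly)
open FA.BrumerSilverman (exists_pow_card_le)
open scoped Classical

namespace FA.TwoSelmerBound

theorem card_modTwo_of_root {A B : ℤ} (hΔ : 4 * A ^ 3 + 27 * B ^ 2 ≠ 0) {r : ℚ}
    (hr : r ^ 3 + (A : ℚ) * r + B = 0) :
    Nat.card (PointsModTwo (A : ℚ) B) ≤
      8 * 4 ^ (4 * A ^ 3 + 27 * B ^ 2).natAbs.primeFactors.card := by
  set D := 4 * A ^ 3 + 27 * B ^ 2
  set W : WeierstrassCurve ℤ := ⟨0, 0, 0, A, B⟩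
  have hW : W.map (Int.castRingHom ℚ) = shortCurve (A : ℚ) B := by ext <;> simp [W]
  have hWΔ : W.Δ = -16 * D := by
    simp [W, D, WeierstrassCurve.Δ, WeierstrassCurve.b₂, WeierstrassCurve.b₄, WeierstrassCurve.b₆,
      WeierstrassCurve.b₈]
    ring
  have hW0 : W.Δ ≠ 0 := by rw [hWΔ]; exact mul_ne_zero (by norm_num) hΔ
  haveI := FA.Frob.ratCurve_isElliptic_of_Δ hW0
  have h : (W.map (Int.castRingHom ℚ)).toAffine.Nonsingular r 0 :=
    Affine.equation_iff_nonsingular.mp ((Affine.equation_iff _ _).mpr (by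
      simp [W]; linear_combination -hr))
  have hT : addOrderOf (Affine.Point.some r 0 h) = 2 := by
    haveI : Fact (Nat.Prime 2) := ⟨Nat.prime_two⟩
    refine addOrderOf_eq_prime ?_ (Affine.Point.some_ne_zero h)
    rw [two_nsmul, add_eq_zero_iff_eq_neg, Affine.Point.neg_some, Affine.Point.some.injEq]
    exact ⟨rfl, by simp [Affine.negY, W]⟩
  have hrank := FA.Summary.rank_le_of_two_torsion W hW0 _ hT
  rw [congrArg (fun E : WeierstrassCurve ℚ => finrank ℤ E.toAffine.Point) hW] at hrank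
  have hsub : (2 * W.Δ).natAbs.primeFactors.card ≤ D.natAbs.primeFactors.card + 1 := by
    refine (card_le_card fun q hq => ?_).trans (card_insert_le 2 D.natAbs.primeFactors)
    have hqp := Nat.prime_of_mem_primeFactors hq
    have hd := Nat.dvd_of_mem_primeFactors hq
    rw [hWΔ, show 2 * (-16 * D) = -32 * D by ring, Int.natAbs_mul] at hd
    rcases hqp.dvd_mul.mp hd with hd | hd
    · rw [(Nat.prime_dvd_prime_iff_eq hqp Nat.prime_two).mp
        (hqp.dvd_of_dvd_pow (show q ∣ 2 ^ 5 from hd))]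
      exact mem_insert_self _ _
    · exact mem_insert_of_mem (Nat.mem_primeFactors.mpr ⟨hqp, hd, Int.natAbs_ne_zero.mpr hΔ⟩)
  refine (IntegralUniform.card_modTwo_le_rank hΔ).2.trans ?_
  set w := D.natAbs.primeFactors.card
  have hle : FA.AverageRank.rankOf A B ≤ 2 * w + 1 := by
    show finrank ℤ (shortCurve (A : ℚ) B).toAffine.Point ≤ 2 * w + 1
    omega
  calc 4 * 2 ^ FA.AverageRank.rankOf A B ≤ 4 * 2 ^ (2 * w + 1) :=
        Nat.mul_le_mul_left _ (Nat.pow_le_pow_right (by norm_num) hle)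
    _ = _ := by rw [pow_succ, pow_mul]; norm_num; ring

/-- **`#E(ℚ)/2E(ℚ) = O_ε (|D| ^ (1/3 + ε))`.** -/
theorem exists_modTwo_bound {ε : ℝ} (hε : 0 < ε) : ∃ C : ℝ, 0 ≤ C ∧
    ∀ A B : ℤ, 4 * A ^ 3 + 27 * B ^ 2 ≠ 0 → Finite (PointsModTwo (A : ℚ) B) ∧
      (Nat.card (PointsModTwo (A : ℚ) B) : ℝ) ≤
        C * |((4 * A ^ 3 + 27 * B ^ 2 : ℤ) : ℝ)| ^ (1 / 3 + ε) := by
  obtain ⟨T₀, htwo⟩ := FA.TwoTorsionBound.exists_two_torsion_bound 3 (by norm_num) (half_pos hε)
  obtain ⟨P, hP, hpow⟩ := exists_pow_card_le 256 (half_pos hε)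
  set T := max T₀ 1
  have hT : 1 ≤ T := le_max_right _ _
  refine ⟨1 + 8 * P * T, by positivity, fun A B hΔ => ⟨IntegralUniform.finite_modTwo hΔ, ?_⟩⟩
  set D := 4 * A ^ 3 + 27 * B ^ 2
  set R : ℝ := |(D : ℝ)|
  have hR : 1 ≤ R := by
    simp only [R]; rw [← Int.cast_abs]; exact_mod_cast Int.one_le_abs hΔ
  set w := D.natAbs.primeFactors.card
  have hw : (256 : ℝ) ^ w ≤ P * R ^ (ε / 2) := by
    refine (le_of_eq (by norm_num [w])).trans ((hpow D.natAbs.primeFactors
      fun p hp => Nat.prime_of_mem_primeFactors hp).trans ?_)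
    refine mul_le_mul_of_nonneg_left (Real.rpow_le_rpow (Nat.cast_nonneg _) ?_ (by positivity))
      (by linarith)
    rw [show R = ((D.natAbs : ℕ) : ℝ) by simp only [R]; rw [Nat.cast_natAbs, Int.cast_abs]]
    exact Nat.cast_le.mpr (Nat.le_of_dvd (Int.natAbs_pos.mpr hΔ) (Nat.prod_primeFactors_dvd _))
  have hsplit : R ^ (1 / 3 + ε) = R ^ (ε / 2) * R ^ (1 / 3 + ε / 2) := by
    rw [← Real.rpow_add (by linarith)]; ring_nf
  have hone : 1 ≤ R ^ (1 / 3 + ε / 2) := Real.one_le_rpow hR (by positivity)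
  by_cases hroot : ∃ r : ℚ, r ^ 3 + (A : ℚ) * r + B = 0
  · obtain ⟨r, hr⟩ := hroot
    calc (Nat.card (PointsModTwo (A : ℚ) B) : ℝ) ≤ 8 * (4 : ℝ) ^ w := by
          exact_mod_cast card_modTwo_of_root hΔ hr
      _ ≤ 8 * (256 : ℝ) ^ w := by gcongr; norm_num
      _ ≤ 8 * (P * R ^ (ε / 2)) * (T * R ^ (1 / 3 + ε / 2)) := by
          refine le_trans (mul_le_mul_of_nonneg_left hw (by norm_num)) ?_
          exact le_mul_of_one_le_right (by positivity) (one_le_mul_of_one_le_of_one_le hT hone)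
      _ ≤ _ := by
          rw [hsplit]
          have : 0 ≤ R ^ (ε / 2) * R ^ (1 / 3 + ε / 2) := by positivity
          nlinarith
  · push Not at hroot
    haveI : Fact (Irreducible (cubicPoly (A : ℚ) B)) := ⟨irreducible_cubicPoly hroot⟩
    have hfin : finrank ℚ (CubicAlg (A : ℚ) B) = 3 := by
      rw [(AdjoinRoot.powerBasis (irreducible_cubicPoly hroot).ne_zero).finrank,
        AdjoinRoot.powerBasis_dim, natDegree_cubicPoly]
    haveI hfd : FiniteDimensional ℚ (CubicAlg (A : ℚ) B) :=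
      FiniteDimensional.of_finrank_eq_succ hfin
    haveI : NumberField (CubicAlg (A : ℚ) B) := @NumberField.mk _ _ inferInstance hfd
    obtain ⟨-, hle⟩ := card_modTwo_le_two_torsion hΔ
    have h2 := htwo (CubicAlg (A : ℚ) B) hfin
    rw [show (1 : ℝ) / 2 - 1 / (2 * ((3 : ℕ) : ℝ)) + ε / 2 = 1 / 3 + ε / 2 by norm_num] at h2
    have h2' : (Nat.card {c : ClassGroup (𝓞 (CubicAlg (A : ℚ) B)) // c ^ 2 = 1} : ℝ) ≤
        T * R ^ (1 / 3 + ε / 2) :=
      h2.trans (mul_le_mul (le_max_left _ _)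
        (Real.rpow_le_rpow (abs_nonneg _) (abs_discr_le_cubic hΔ) (by positivity))
        (Real.rpow_nonneg (abs_nonneg _) _) (by linarith))
    calc (Nat.card (PointsModTwo (A : ℚ) B) : ℝ)
        ≤ 1 + 8 * (256 : ℝ) ^ w *
            Nat.card {c : ClassGroup (𝓞 (CubicAlg (A : ℚ) B)) // c ^ 2 = 1} := by
          exact_mod_cast hle
      _ ≤ 1 * R ^ (1 / 3 + ε) + 8 * (P * R ^ (ε / 2)) * (T * R ^ (1 / 3 + ε / 2)) := by
          refine add_le_add ?_ (mul_le_mul (mul_le_mul_of_nonneg_left hw (by norm_num)) h2'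
            (Nat.cast_nonneg _) (by positivity))
          rw [one_mul]
          exact Real.one_le_rpow hR (by positivity)
      _ = _ := by rw [hsplit]; ring

/-- **The rank of every integral equation.** -/
theorem exists_two_pow_rank_bound {ε : ℝ} (hε : 0 < ε) : ∃ C : ℝ, 1 ≤ C ∧
    ∀ W : WeierstrassCurve ℤ, W.Δ ≠ 0 →
      (2 : ℝ) ^ finrank ℤ (IntegralUniform.ratModel W).toAffine.Point ≤
        C * |(W.Δ : ℝ)| ^ (1 / 3 + ε) := by
  obtain ⟨C, hC, h⟩ := exists_modTwo_bound hε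
  set k : ℝ := 78732 * 1728
  refine ⟨max (C * k ^ (1 / 3 + ε)) 1, le_max_right _ _, fun W hW => ?_⟩
  have hΔ : 4 * (-27 * W.c₄) ^ 3 + 27 * (-54 * W.c₆) ^ 2 ≠ 0 := by
    rw [IntegralUniform.shortDiscr_eq]; exact mul_ne_zero (by norm_num) hW
  obtain ⟨hfin, hle⟩ := h _ _ hΔ
  rw [IntegralUniform.shortDiscr_eq] at hle
  rw [IntegralUniform.finrank_short hW]
  haveI := hfin
  have h1 : (2 : ℝ) ^ FA.AverageRank.rankOf (-27 * W.c₄) (-54 * W.c₆) ≤
      (Nat.card (PointsModTwo ((-27 * W.c₄ : ℤ) : ℚ) ((-54 * W.c₆ : ℤ) : ℚ)) : ℝ) := by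
    exact_mod_cast FA.AverageRank.two_pow_rank_le_modTwo hΔ
  refine h1.trans (hle.trans ?_)
  rw [show |((-(78732 * 1728) * W.Δ : ℤ) : ℝ)| = k * |(W.Δ : ℝ)| by
    push_cast; rw [abs_mul]; norm_num [k], Real.mul_rpow (by norm_num [k]) (abs_nonneg _),
    ← mul_assoc]
  exact mul_le_mul_of_nonneg_right (le_max_left _ _) (by positivity)

/-- **`S`-integral points.** -/
theorem exists_points_bound {ε : ℝ} (hε : 0 < ε) : ∃ C : ℝ, 0 ≤ C ∧
    ∀ (S : Finset ℕ), (∀ p ∈ S, p.Prime) → ∀ W : WeierstrassCurve ℤ, W.Δ ≠ 0 →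
      (IntegralUniform.modelPoints S W).Finite ∧
      ((IntegralUniform.modelPoints S W).ncard : ℝ) ≤
        C * ((∏ p ∈ S, p : ℕ) : ℝ) ^ ε * |(W.Δ : ℝ)| ^ (1 / 3 + ε) := by
  obtain ⟨C, hC, h⟩ := exists_two_pow_rank_bound (half_pos hε)
  obtain ⟨c, hc⟩ : ∃ c : ℕ, c = 5 ^ 912 := ⟨_, rfl⟩
  obtain ⟨P, hP, hpow⟩ := exists_pow_card_le c (half_pos hε)
  obtain ⟨N, hN⟩ : ∃ N : ℕ, ∀ t, IntegralUniform.pointBound t = N * c ^ t := by
    refine ⟨8 * (1110 * 5 ^ 931), fun t => ?_⟩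
    unfold IntegralUniform.pointBound IntegralAverage.solBound
    rw [hc, ← pow_mul, show 19 * (2 * ((4 : ℕ).factorial * (t + 1)) + 1) = 931 + 912 * t by
      simp [Nat.factorial]; ring, pow_add]
    generalize (5 : ℕ) ^ 931 = u
    generalize (5 : ℕ) ^ (912 * t) = v
    ring
  have hc1 : (1 : ℝ) ≤ c := by
    rw [hc]; push_cast; exact one_le_pow₀ (by norm_num)
  clear hc
  have hC0 : 0 ≤ C := by linarith
  have hP0 : 0 ≤ P := by linarith
  refine ⟨N * (c : ℝ) ^ 2 * P * P * C, by positivity, fun S hS W hW => ?_⟩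
  obtain ⟨hfin, hle⟩ := IntegralUniform.modelPoints_le_rank S hW
  refine ⟨hfin, ?_⟩
  rw [hN] at hle
  set R : ℝ := |(W.Δ : ℝ)|
  have hR : 1 ≤ R := by simp only [R]; rw [← Int.cast_abs]; exact_mod_cast Int.one_le_abs hW
  set Q : ℝ := ((∏ p ∈ S, p : ℕ) : ℝ)
  have hQ : 1 ≤ Q := Nat.one_le_cast.mpr (prod_pos fun p hp => (hS p hp).pos)
  have hcard : (IntegralUniform.modelPrimes S W).card ≤
      S.card + (2 + W.Δ.natAbs.primeFactors.card) := by
    refine (card_union_le _ _).trans (Nat.add_le_add_left ?_ _)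
    refine (card_le_card fun q hq => ?_).trans ((card_union_le ({2, 3} : Finset ℕ) _).trans
      (Nat.add_le_add_right card_le_two _))
    have hqp := Nat.prime_of_mem_primeFactors hq
    have hd := Nat.dvd_of_mem_primeFactors hq
    rw [Int.natAbs_mul] at hd
    rcases hqp.dvd_mul.mp hd with hd | hd
    · refine mem_union_left _ ?_
      rcases hqp.dvd_mul.mp (show q ∣ 2 * 3 from hd) with h6 | h6
      · simp [(Nat.prime_dvd_prime_iff_eq hqp Nat.prime_two).mp h6]
      · simp [(Nat.prime_dvd_prime_iff_eq hqp Nat.prime_three).mp h6]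
    · exact mem_union_right _
        (Nat.mem_primeFactors.mpr ⟨hqp, hd, Int.natAbs_ne_zero.mpr hW⟩)
  have hS' : (c : ℝ) ^ S.card ≤ P * Q ^ ε :=
    (hpow S hS).trans (mul_le_mul_of_nonneg_left
      (Real.rpow_le_rpow_of_exponent_le hQ (by linarith)) (by linarith))
  have hΔ' : (c : ℝ) ^ W.Δ.natAbs.primeFactors.card ≤ P * R ^ (ε / 2) := by
    refine (hpow _ fun p hp => Nat.prime_of_mem_primeFactors hp).trans
      (mul_le_mul_of_nonneg_left (Real.rpow_le_rpow (Nat.cast_nonneg _) ?_ (by positivity))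
        (by linarith))
    rw [show R = ((W.Δ.natAbs : ℕ) : ℝ) by simp only [R]; rw [Nat.cast_natAbs, Int.cast_abs]]
    exact Nat.cast_le.mpr (Nat.le_of_dvd (Int.natAbs_pos.mpr hW) (Nat.prod_primeFactors_dvd _))
  calc ((IntegralUniform.modelPoints S W).ncard : ℝ)
      ≤ (N : ℝ) * (c : ℝ) ^ (IntegralUniform.modelPrimes S W).card *
          2 ^ finrank ℤ (IntegralUniform.ratModel W).toAffine.Point := by exact_mod_cast hle
    _ ≤ (N : ℝ) * ((c : ℝ) ^ 2 * (P * Q ^ ε) * (P * R ^ (ε / 2))) *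
          (C * R ^ (1 / 3 + ε / 2)) := by
        refine mul_le_mul (mul_le_mul_of_nonneg_left ?_ (Nat.cast_nonneg _)) (h W hW)
          (by positivity) (by positivity)
        refine (pow_le_pow_right₀ hc1 hcard).trans ?_
        rw [pow_add, pow_add, mul_comm ((c : ℝ) ^ 2) (P * Q ^ ε), mul_assoc (P * Q ^ ε)]
        exact mul_le_mul hS' (mul_le_mul_of_nonneg_left hΔ' (by positivity)) (by positivity)
          (by positivity)
    _ = _ := by
        rw [show R ^ (1 / 3 + ε) = R ^ (ε / 2) * R ^ (1 / 3 + ε / 2) by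
          rw [← Real.rpow_add (by linarith)]; ring_nf]
        ring

end FA.TwoSelmerBound
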